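import Fermat.Agent.S17.Pos.Curve
import Fermat.Agent.S17.FC.Shift
import Fermat.Agent.S17.FC.Thr

/-!
# S17, leaf 8c on the frame `FC/Defs`: (pos) and (north) for `FC_HH`, in the shape of
`PNa.Extra.pos` and `PNa.Extra.north` (`deg = dvDeg N`, `c = cFC N`, `H b E = FC_HH N b E`).
-/

set_option autoImplicit false
set_option synthInstance.maxHeartbeats 400000
set_option linter.unusedSectionVars false

open AlgebraicCurve ModularCurve Height
  Fermat.Agent.S24Lib Fermat.Agent.FFLib Fermat.Agent.S18Lib Fermat.Agent.S28Lib Fermat.Agent.ESLib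

namespace Fermat.Agent.S17Lib

noncomputable section

/-- Northcott for `subH` -/
theorem NORTH_subH {d : ℕ} (T : ℝ) : {W : Submodule ℚ (Fin d → ℚ) | subH W ≤ T}.Finite := by
  have h1 : (⋃ k : Fin (d + 1), {W : Submodule ℚ (Fin d → ℚ) |
      ∃ B : Matrix (Fin (k : ℕ)) (Fin d) ℚ, LinearIndependent ℚ B.row ∧
      Submodule.span ℚ (Set.range B.row) = W ∧ logHeight (plu B) ≤ T}).Finite :=
    Set.finite_iUnion fun k => northcott_plucker (k := (k : ℕ)) (ι := Fin d) T
  refine h1.subset fun W hW => ?_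
  have hk : Module.finrank ℚ W < d + 1 := by
    have := Submodule.finrank_le W
    rw [Module.finrank_fin_fun] at this
    omega
  exact Set.mem_iUnion.mpr ⟨⟨Module.finrank ℚ W, hk⟩, FCs_mat W, FCs_mat_li W, FCs_mat_span W, hW⟩

variable (N : ℕ) [NeZero N]

/-- **(north)** -/
theorem FC_north (b n : ℕ) (T : ℝ) (h : n + cFC N + 1 ≤ b) :
    {E : Dv N | dvDeg N E = n ∧ FC_HH N b (E : Divisor Qb (FB N)) ≤ T}.Finite := by
  refine Set.Finite.of_finite_image (f := fun E : Dv N => WQ N b (E : Divisor Qb (FB N)))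
    ((NORTH_subH T).subset ?_) ?_
  · rintro _ ⟨E, ⟨-, hT⟩, rfl⟩
    exact hT
  · refine (FCs_WQ_injOn N (cFC_rr N) b).mono ?_
    rintro E ⟨hE, -⟩
    show (cFC N : ℤ) + 1 + (dvDeg N E : ℤ) ≤ b
    rw [hE]
    omega

/-- the rational `q`-expansions of the basis `bas N b` -/
def POS_rb (b : ℕ) (i : Fin (dV N b)) : LaurentSeries ℚ :=
  (exists_cE_of_isRat N ((bas_spec N b).1 i)).choose

theorem POS_rb_spec (b : ℕ) (i : Fin (dV N b)) :
    cE (POS_rb N b i) = (bas N b i : LaurentSeries Qb) :=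
  (exists_cE_of_isRat N ((bas_spec N b).1 i)).choose_spec

theorem POS_cE_phi (b : ℕ) (c : Fin (dV N b) → ℚ) :
    cE (POS_phi (POS_rb N b) c) = (vecQ N b c : LaurentSeries Qb) := by
  rw [POS_phi_apply, cE_sum, vecQ_apply]
  show _ = embL N (∑ i, algebraMap ℚ Qb (c i) • bas N b i)
  rw [map_sum]
  refine Finset.sum_congr rfl fun i _ => ?_
  rw [map_smul, POS_rb_spec]
  rfl

theorem POS_rb_li (b : ℕ) : LinearIndependent ℚ (POS_rb N b) := by
  refine linearIndependent_iff_injective_fintypeLinearCombination.mpr fun c c' h => ?_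
  apply vecQ_injective N b
  apply Subtype.ext
  rw [← POS_cE_phi, ← POS_cE_phi]
  exact congrArg cE h

theorem POS_phi_mem_ratL {b : ℕ} {E : Divisor Qb (FB N)} (c : Fin (dV N b) → ℚ) :
    POS_phi (POS_rb N b) c ∈ ratL N (dvo N b E) ↔ c ∈ WQ N b E := by
  rw [mem_ratL, mem_LS, mem_WQ, POS_cE_phi]
  constructor
  · rintro ⟨f, hf, hfe⟩
    have : f = vecQ N b c := Subtype.ext hfe
    rwa [← this]
  · intro h
    exact ⟨_, h, rfl⟩

theorem POS_map_WQ (b : ℕ) {E : Divisor Qb (FB N)} (hE : 0 ≤ E) :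
    (WQ N b E).map (POS_phi (POS_rb N b)) = ratL N (dvo N b E) := by
  apply le_antisymm
  · rintro _ ⟨c, hc, rfl⟩
    exact (POS_phi_mem_ratL N c).mpr hc
  · intro r hr
    obtain ⟨f, hf, hfr⟩ := (mem_LS N).mp hr
    obtain ⟨c, hc⟩ := exists_vecQ_of_isRat N (L_mono (dvo_le N b hE) hf)
      (isRat_of_coe_eq_cE N hfr)
    refine ⟨c, ?_, ?_⟩
    · rw [SetLike.mem_coe, mem_WQ, hc]
      exact hf
    · apply cE_injective
      rw [POS_cE_phi, hc, hfr]

theorem POS_span_rb (b : ℕ) :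
    Submodule.span ℚ (Set.range (POS_rb N b)) = ratL N (dvo N b 0) := by
  rw [← POS_map_WQ N b le_rfl, FCT_WQ_zero, Submodule.map_top, POS_phi,
    Fintype.range_linearCombination]

theorem POS_span_mat (b : ℕ) {E : Divisor Qb (FB N)} (hE : 0 ≤ E) :
    Submodule.span ℚ (Set.range fun i => POS_phi (POS_rb N b) (FCs_mat (WQ N b E) i)) =
      ratL N (dvo N b E) := by
  rw [← POS_map_WQ N b hE]
  conv_rhs => rw [← FCs_mat_span (WQ N b E), Submodule.map_span, ← Set.range_comp]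
  rfl

/-- **(pos)** -/
theorem FC_pos (b : ℕ) : ∃ C : ℝ, ∀ E : Dv N, dvDeg N E + cFC N ≤ b →
    FC_HH N b (E : Divisor Qb (FB N)) ≤ FC_HH N (b + 1) (E : Divisor Qb (FB N)) + C := by
  have e1 : ∀ E : Divisor Qb (FB N), dvo N (b + 1) E =
      Finsupp.single (oo N) (b : ℤ) + Finsupp.single (pInf N) 1 - E := by
    intro E
    rw [← oo_eq_pInf, ← Finsupp.single_add]
    simp [dvo]
  obtain ⟨C, hC⟩ := POS_curve N (cFC_rr N) (Finsupp.single (oo N) (b : ℤ))
    (by rw [oo_eq_pInf]; exact POS_isRatDiv_single N _) (POS_rb N b) (POS_rb N (b + 1))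
    (POS_rb_li N b) (POS_rb_li N (b + 1))
    (by rw [POS_span_rb]; simp [dvo])
    (by rw [POS_span_rb, e1, sub_zero])
  refine ⟨C, fun E hE => ?_⟩
  have h := hC (E : Divisor Qb (FB N)) E.2.1 E.2.2
    (by rw [degree_single' (isFF_FB N), ← coe_dvDeg]; omega) _ _
    (FCs_mat (WQ N b E)) (FCs_mat (WQ N (b + 1) E)) (FCs_mat_li _) (FCs_mat_li _)
    (POS_span_mat N b E.2.1) (by rw [POS_span_mat N (b + 1) E.2.1, e1])
  exact h

end

end Fermat.Agent.S17Lib
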