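import Fermat.Agent.S17.Frame.LA
import Fermat.Agent.S17.NorthcottPlu

/-!
# S17, leaf 8c, abstract part: (pos) and (north) for subspaces of a `ℚ`-vector space `X`
given in coordinates with respect to fixed frames.

`POS_phi β y = ∑ j, y j • β j`.
-/

set_option autoImplicit false

open Matrix Height

namespace Fermat.Agent.S17Lib

variable {X : Type*} [AddCommGroup X] [Module ℚ X]

/-- the vector with coordinates `y` in the frame `β` -/
noncomputable abbrev POS_phi {d : ℕ} (β : Fin d → X) : (Fin d → ℚ) →ₗ[ℚ] X :=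
  Fintype.linearCombination ℚ β

theorem POS_phi_apply {d : ℕ} (β : Fin d → X) (y : Fin d → ℚ) :
    POS_phi β y = ∑ j, y j • β j := by
  simp [POS_phi, Fintype.linearCombination_apply]

theorem POS_phi_injective {d : ℕ} {β : Fin d → X} (hβ : LinearIndependent ℚ β) :
    Function.Injective (POS_phi β) :=
  linearIndependent_iff_injective_fintypeLinearCombination.mp hβ

/-- the transition matrix between two frames -/
theorem POS_exists_T {d d' : ℕ} (β : Fin d → X) (β' : Fin d' → X)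
    (hle : ∀ j, β j ∈ Submodule.span ℚ (Set.range β')) :
    ∃ T : Matrix (Fin d) (Fin d') ℚ, ∀ y, POS_phi β' (y ᵥ* T) = POS_phi β y := by
  have h1 : ∀ j, ∃ c : Fin d' → ℚ, ∑ l, c l • β' l = β j := fun j =>
    (Submodule.mem_span_range_iff_exists_fun ℚ).mp (hle j)
  choose c hc using h1
  refine ⟨Matrix.of c, fun y => ?_⟩
  rw [POS_phi_apply, POS_phi_apply]
  simp only [Matrix.vecMul, dotProduct, Matrix.of_apply, Finset.sum_smul]
  rw [Finset.sum_comm]
  refine Finset.sum_congr rfl fun j _ => ?_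
  rw [← hc j, Finset.smul_sum]
  refine Finset.sum_congr rfl fun l _ => ?_
  rw [smul_smul]

theorem POS_mem_span_of_phi {d k : ℕ} {β : Fin d → X} (hβ : LinearIndependent ℚ β)
    (a : Matrix (Fin k) (Fin d) ℚ) (y : Fin d → ℚ)
    (h : POS_phi β y ∈ Submodule.span ℚ (Set.range fun i => POS_phi β (a i))) :
    y ∈ Submodule.span ℚ (Set.range a.row) := by
  have e : (Set.range fun i => POS_phi β (a i)) = POS_phi β '' (Set.range a.row) := by
    ext x
    constructor
    · rintro ⟨i, rfl⟩; exact ⟨a i, ⟨i, rfl⟩, rfl⟩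
    · rintro ⟨_, ⟨i, rfl⟩, rfl⟩; exact ⟨i, rfl⟩
  rw [e, ← Submodule.map_span] at h
  obtain ⟨z, hz, hzy⟩ := h
  rwa [← POS_phi_injective hβ hzy]

/-- one functional, fixed `k` -/
theorem POS_frame_aux {d d' : ℕ} (β : Fin d → X) (β' : Fin d' → X)
    (hβ : LinearIndependent ℚ β) (hβ' : LinearIndependent ℚ β')
    (hle : ∀ j, β j ∈ Submodule.span ℚ (Set.range β')) (lam : X →ₗ[ℚ] ℚ) (k : ℕ) :
    ∃ C : ℝ, 0 ≤ C ∧ ∀ (a : Matrix (Fin k) (Fin d) ℚ) (a' : Matrix (Fin (k + 1)) (Fin d') ℚ),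
      LinearIndependent ℚ a.row →
      (∀ i, POS_phi β (a i) ∈ Submodule.span ℚ (Set.range fun i' => POS_phi β' (a' i'))) →
      (∀ i, lam (POS_phi β (a i)) = 0) → (∃ i', lam (POS_phi β' (a' i')) ≠ 0) →
      logHeight (plu a) ≤ logHeight (plu a') + C := by
  obtain ⟨T, hT⟩ := POS_exists_T β β' hle
  have hTinj : Function.Injective (fun x : Fin d → ℚ => x ᵥ* T) := by
    intro x y hxy
    apply POS_phi_injective hβ
    rw [← hT, ← hT]
    exact congrArg _ hxy
  obtain ⟨C₁, h₁⟩ := LA_logHeight_mul_right (n := Fin k) T hTinj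
  obtain ⟨C₂, h₂⟩ := LA_logHeight_ctr_le (k := k) (fun l => lam (β' l))
  refine ⟨|C₁| + |C₂|, by positivity, fun a a' ha hsp h0 h1 => ?_⟩
  have hlam : ∀ y : Fin d' → ℚ, ∑ l, lam (β' l) * y l = lam (POS_phi β' y) := by
    intro y
    rw [POS_phi_apply, map_sum]
    refine Finset.sum_congr rfl fun l _ => ?_
    rw [map_smul, smul_eq_mul, mul_comm]
  have hrow : ∀ i, (a * T) i = a i ᵥ* T := fun i => by
    funext l
    simp [Matrix.mul_apply, Matrix.vecMul, dotProduct]
  have hli : LinearIndependent ℚ (a * T).row := by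
    have : (a * T).row = (Matrix.vecMulLinear T) ∘ a.row := by
      funext i
      exact hrow i
    rw [this]
    exact ha.map' _ (LinearMap.ker_eq_bot.mpr hTinj)
  have e2 := h₂ a' (a * T) (LA_plu_ne_zero _ hli)
    (fun i => by
      apply POS_mem_span_of_phi hβ' a'
      rw [hrow, hT]
      exact hsp i)
    (fun i => by rw [hlam, hrow, hT]; exact h0 i)
    (by
      obtain ⟨i', hi'⟩ := h1
      exact ⟨i', by rw [hlam]; exact hi'⟩)
  have e1 := (abs_le.mp (h₁ a)).1
  have := le_abs_self C₁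
  have := le_abs_self C₂
  linarith

/-- **(pos), abstract form**: finitely many functionals, all `k` -/
theorem POS_frame {d d' m : ℕ} (β : Fin d → X) (β' : Fin d' → X)
    (hβ : LinearIndependent ℚ β) (hβ' : LinearIndependent ℚ β')
    (hle : ∀ j, β j ∈ Submodule.span ℚ (Set.range β')) (lam : Fin m → X →ₗ[ℚ] ℚ) :
    ∃ C : ℝ, ∀ (k k' : ℕ) (a : Matrix (Fin k) (Fin d) ℚ) (a' : Matrix (Fin k') (Fin d') ℚ),
      k' = k + 1 → LinearIndependent ℚ a.row →
      (∀ i, POS_phi β (a i) ∈ Submodule.span ℚ (Set.range fun i' => POS_phi β' (a' i'))) →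
      (∃ j, (∀ i, lam j (POS_phi β (a i)) = 0) ∧ ∃ i', lam j (POS_phi β' (a' i')) ≠ 0) →
      logHeight (plu a) ≤ logHeight (plu a') + C := by
  choose C hC0 hC using fun (j : Fin m) (k : ℕ) => POS_frame_aux β β' hβ hβ' hle (lam j) k
  refine ⟨∑ j, ∑ k ∈ Finset.range (d + 1), C j k, ?_⟩
  rintro k k' a a' rfl ha hsp ⟨j, h0, h1⟩
  have hk : k ≤ d := by
    have := ha.fintype_card_le_finrank
    simpa using this
  have e := hC j k a a' ha hsp h0 h1
  have l1 : C j k ≤ ∑ k ∈ Finset.range (d + 1), C j k :=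
    Finset.single_le_sum (f := fun k => C j k) (fun i _ => hC0 j i)
      (Finset.mem_range.mpr (by omega))
  have l2 : ∑ k ∈ Finset.range (d + 1), C j k ≤ ∑ j, ∑ k ∈ Finset.range (d + 1), C j k :=
    Finset.single_le_sum (f := fun j => ∑ k ∈ Finset.range (d + 1), C j k)
      (fun i _ => Finset.sum_nonneg fun k _ => hC0 i k) (Finset.mem_univ j)
  linarith

/-- **(north), abstract form** -/
theorem NORTH_frame {d : ℕ} (β : Fin d → X) (T : ℝ) :
    {W : Submodule ℚ X | ∃ (k : ℕ) (a : Matrix (Fin k) (Fin d) ℚ), LinearIndependent ℚ a.row ∧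
      Submodule.span ℚ (Set.range fun i => POS_phi β (a i)) = W ∧ logHeight (plu a) ≤ T}.Finite := by
  have h1 : (⋃ k : Fin (d + 1), {W : Submodule ℚ (Fin d → ℚ) |
      ∃ B : Matrix (Fin (k : ℕ)) (Fin d) ℚ, LinearIndependent ℚ B.row ∧
      Submodule.span ℚ (Set.range B.row) = W ∧ logHeight (plu B) ≤ T}).Finite :=
    Set.finite_iUnion fun k => northcott_plucker (k := (k : ℕ)) (ι := Fin d) T
  refine (h1.image (Submodule.map (POS_phi β))).subset ?_
  rintro W ⟨k, a, ha, rfl, hT⟩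
  have hk : k ≤ d := by
    have := ha.fintype_card_le_finrank
    simpa using this
  refine ⟨Submodule.span ℚ (Set.range a.row), Set.mem_iUnion.mpr ⟨⟨k, by omega⟩, a, ha, rfl, hT⟩, ?_⟩
  rw [Submodule.map_span]
  congr 1
  ext x
  constructor
  · rintro ⟨_, ⟨i, rfl⟩, rfl⟩; exact ⟨i, rfl⟩
  · rintro ⟨i, rfl⟩; exact ⟨a i, ⟨i, rfl⟩, rfl⟩

end Fermat.Agent.S17Lib
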