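import Fermat.Agent.S17.Frame.RatL
import Fermat.Agent.S17.Geo.Closed
import Fermat.Agent.S17.Pos.Abs

/-!
# S17, leaf 8c, curve part: (pos) and (north) for the rational Riemann-Roch spaces `ratL N D`,
for arbitrary bases / coordinates.
-/

set_option autoImplicit false
set_option synthInstance.maxHeartbeats 400000
set_option linter.unusedSectionVars false

open AlgebraicCurve ModularCurve Height
  Fermat.Agent.S24Lib Fermat.Agent.FFLib Fermat.Agent.S18Lib Fermat.Agent.S28Lib Fermat.Agent.ESLib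

namespace Fermat.Agent.S17Lib

noncomputable section

variable (N : ℕ) [NeZero N]

theorem POS_isRatDiv_add {D D' : Divisor Qb (FB N)} (h : IsRatDiv N D) (h' : IsRatDiv N D') :
    IsRatDiv N (D + D') := fun σ => by rw [smul_add, h σ, h' σ]

theorem POS_isRatDiv_sub {D D' : Divisor Qb (FB N)} (h : IsRatDiv N D) (h' : IsRatDiv N D') :
    IsRatDiv N (D - D') := fun σ => by rw [smul_sub, h σ, h' σ]

theorem POS_isRatDiv_single (n : ℤ) : IsRatDiv N (Finsupp.single (pInf N) n) := fun σ => by
  rw [SemilinearAut.smul_single, gS_pInf]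

/-- the coefficient functionals on `ℚ((q))` -/
def POS_coeff (m : ℤ) : LaurentSeries ℚ →ₗ[ℚ] ℚ where
  toFun r := r.coeff m
  map_add' := by intros; simp
  map_smul' := by intros; simp

theorem POS_coeff_apply (m : ℤ) (r : LaurentSeries ℚ) : POS_coeff m r = r.coeff m := rfl

theorem POS_L_eq_of_ratL_eq {D D' : Divisor Qb (FB N)} (hD : IsRatDiv N D) (hD' : IsRatDiv N D')
    (h : ratL N D = ratL N D') : riemannRochSpace D = riemannRochSpace D' := by
  have h1 : LS N D = LS N D' := by rw [← span_cE_ratL N hD, ← span_cE_ratL N hD', h]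
  exact Submodule.map_injective_of_injective (f := embL N) Subtype.val_injective h1

/-- `E ↦ ratL N (B - E)` is injective above the threshold -/
theorem POS_ratL_sub_injective {c : ℤ} (hc : IsRRBound Qb (FB N) c) {B E E' : Divisor Qb (FB N)}
    (hB : IsRatDiv N B) (hE : IsRatDiv N E) (hE' : IsRatDiv N E')
    (hd : c + 1 ≤ Divisor.degree (B - E)) (hd' : c + 1 ≤ Divisor.degree (B - E'))
    (h : ratL N (B - E) = ratL N (B - E')) : E = E' := by
  have h1 := POS_L_eq_of_ratL_eq N (POS_isRatDiv_sub N hB hE) (POS_isRatDiv_sub N hB hE') h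
  apply le_antisymm
  · exact (L_le_L_iff (isFF_FB N) hc B E' E hd').mp h1.ge
  · exact (L_le_L_iff (isFF_FB N) hc B E E' hd).mp h1.le

theorem POS_apply_le_degree {E : Divisor Qb (FB N)} (hE : 0 ≤ E) (v : Place Qb (FB N)) :
    E v ≤ Divisor.degree E := by
  classical
  have h1 : 0 ≤ E - Finsupp.single v (E v) := by
    intro w
    rw [Finsupp.sub_apply, Finsupp.single_apply]
    split_ifs with hw
    · subst hw; simp
    · simpa using hE w
  have h2 := dg_degree_nonneg (isFF_FB N) h1
  rw [map_sub, degree_single' (isFF_FB N)] at h2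
  linarith

/-- the functional which cuts `ratL (B - E)` out of `ratL (B + ∞ - E)` -/
theorem POS_exists_coeff {c : ℤ} (hc : IsRRBound Qb (FB N) c) (B E : Divisor Qb (FB N))
    (hB : IsRatDiv N B) (hE0 : 0 ≤ E) (hE : IsRatDiv N E)
    (hdeg : c ≤ Divisor.degree B - Divisor.degree E) :
    ∃ e : ℕ, (e : ℤ) ≤ Divisor.degree B - c ∧
      (∀ r ∈ ratL N (B - E), r.coeff ((e : ℤ) - B (pInf N) - 1) = 0) ∧
      ∃ r ∈ ratL N (B + Finsupp.single (pInf N) 1 - E), r.coeff ((e : ℤ) - B (pInf N) - 1) ≠ 0 := by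
  have hD : IsRatDiv N (B - E) := POS_isRatDiv_sub N hB hE
  have hDe : B + Finsupp.single (pInf N) 1 - E = B - E + Finsupp.single (pInf N) 1 := by abel
  have hD' : IsRatDiv N (B - E + Finsupp.single (pInf N) 1) :=
    POS_isRatDiv_add N hD (POS_isRatDiv_single N 1)
  have he0 : 0 ≤ E (pInf N) := hE0 _
  obtain ⟨e, he⟩ := Int.eq_ofNat_of_zero_le he0
  have hele := POS_apply_le_degree N hE0 (pInf N)
  refine ⟨e, by omega, ?_, ?_⟩
  · intro r hr
    obtain ⟨f, hf, hfr⟩ := (mem_LS N).mp hr
    have h0 : (cE r).coeff ((e : ℤ) - B (pInf N) - 1) = 0 := by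
      rcases (mem_L_iff.mp hf) (pInf N) with h | h
      · rw [← hfr, h]; simp
      · by_cases hf0 : f = 0
        · rw [← hfr, hf0]; simp
        rw [pInf_ord N hf0, hfr, Finsupp.sub_apply] at h
        apply HahnSeries.coeff_eq_zero_of_lt_order
        omega
    rw [coeffMap_coeff] at h0
    exact (map_eq_zero _).mp h0
  · rw [hDe]
    have hex : ∃ r ∈ ratL N (B - E + Finsupp.single (pInf N) 1), r ∉ ratL N (B - E) := by
      by_contra hcon
      push Not at hcon
      have hle : ratL N (B - E + Finsupp.single (pInf N) 1) ≤ ratL N (B - E) := hcon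
      have := finiteDimensional_ratL N hD
      have h1 := Submodule.finrank_mono hle
      rw [finrank_ratL N hD, finrank_ratL N hD'] at h1
      have h2 := hc (B - E) (by rw [map_sub]; exact hdeg)
      have h3 := hc (B - E + Finsupp.single (pInf N) 1)
        (by rw [map_add, map_sub, degree_single' (isFF_FB N)]; omega)
      rw [map_add, degree_single' (isFF_FB N)] at h3
      omega
    obtain ⟨r, hr, hr'⟩ := hex
    refine ⟨r, hr, ?_⟩
    obtain ⟨f, hf, hfr⟩ := (mem_LS N).mp hr
    have hf' : f ∉ riemannRochSpace (B - E) := fun h => hr' ((mem_LS N).mpr ⟨f, h, hfr⟩)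
    obtain ⟨hf0, hord⟩ := ls_ord_eq hf hf'
    rw [pInf_ord N hf0, hfr, Finsupp.sub_apply] at hord
    have hne : cE r ≠ 0 := by
      rw [← hfr]
      intro h
      exact hf0 (Subtype.ext h)
    have h1 : (cE r).coeff (cE r).order ≠ 0 := mt HahnSeries.coeff_order_eq_zero.mp hne
    have h2 : (cE r).order = (e : ℤ) - B (pInf N) - 1 := by omega
    rw [h2, coeffMap_coeff] at h1
    intro h0
    apply h1
    rw [h0, map_zero]

theorem POS_card_eq {d k : ℕ} {β : Fin d → LaurentSeries ℚ} (hβ : LinearIndependent ℚ β)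
    {a : Matrix (Fin k) (Fin d) ℚ} (ha : LinearIndependent ℚ a.row) :
    Module.finrank ℚ (Submodule.span ℚ (Set.range fun i => POS_phi β (a i))) = k := by
  have h1 : LinearIndependent ℚ (fun i => POS_phi β (a i)) :=
    ha.map' _ (LinearMap.ker_eq_bot.mpr (POS_phi_injective hβ))
  rw [finrank_span_eq_card h1, Fintype.card_fin]

/-- **(pos)** for arbitrary bases and coordinates -/
theorem POS_curve {c : ℤ} (hc : IsRRBound Qb (FB N) c) (B : Divisor Qb (FB N))
    (hB : IsRatDiv N B) {d d' : ℕ} (β : Fin d → LaurentSeries ℚ) (β' : Fin d' → LaurentSeries ℚ)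
    (hβ : LinearIndependent ℚ β) (hβ' : LinearIndependent ℚ β')
    (hsp : Submodule.span ℚ (Set.range β) = ratL N B)
    (hsp' : Submodule.span ℚ (Set.range β') = ratL N (B + Finsupp.single (pInf N) 1)) :
    ∃ C : ℝ, ∀ E : Divisor Qb (FB N), 0 ≤ E → IsRatDiv N E →
      c ≤ Divisor.degree B - Divisor.degree E →
      ∀ (k k' : ℕ) (a : Matrix (Fin k) (Fin d) ℚ) (a' : Matrix (Fin k') (Fin d') ℚ),
      LinearIndependent ℚ a.row → LinearIndependent ℚ a'.row →
      Submodule.span ℚ (Set.range fun i => POS_phi β (a i)) = ratL N (B - E) →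
      Submodule.span ℚ (Set.range fun i => POS_phi β' (a' i)) =
        ratL N (B + Finsupp.single (pInf N) 1 - E) →
      logHeight (plu a) ≤ logHeight (plu a') + C := by
  classical
  have hBle : B ≤ B + Finsupp.single (pInf N) 1 := by
    intro v
    rw [Finsupp.add_apply, Finsupp.single_apply]
    split_ifs <;> simp
  have hle : ∀ j, β j ∈ Submodule.span ℚ (Set.range β') := by
    intro j
    rw [hsp']
    apply ratL_mono N hBle
    rw [← hsp]
    exact Submodule.subset_span ⟨j, rfl⟩
  obtain ⟨C, hC⟩ := POS_frame β β' hβ hβ' hle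
    (fun e : Fin (Divisor.degree B - c + 1).toNat => POS_coeff ((e : ℤ) - B (pInf N) - 1))
  refine ⟨C, fun E hE0 hE hdeg k k' a a' ha ha' hs hs' => ?_⟩
  have hD : IsRatDiv N (B - E) := POS_isRatDiv_sub N hB hE
  have hDe : B + Finsupp.single (pInf N) 1 - E = B - E + Finsupp.single (pInf N) 1 := by abel
  have hD' : IsRatDiv N (B - E + Finsupp.single (pInf N) 1) :=
    POS_isRatDiv_add N hD (POS_isRatDiv_single N 1)
  have hk : k' = k + 1 := by
    have h1 := POS_card_eq hβ ha
    have h2 := POS_card_eq hβ' ha'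
    rw [hs, finrank_ratL N hD] at h1
    rw [hs', hDe, finrank_ratL N hD'] at h2
    have h3 := hc (B - E) (by rw [map_sub]; exact hdeg)
    have h4 := hc (B - E + Finsupp.single (pInf N) 1)
      (by rw [map_add, map_sub, degree_single' (isFF_FB N)]; omega)
    rw [map_add, degree_single' (isFF_FB N)] at h4
    omega
  obtain ⟨e, he, h0, r, hr, hr0⟩ := POS_exists_coeff N hc B E hB hE0 hE hdeg
  refine hC k k' a a' hk ha ?_ ⟨⟨e, by omega⟩, ?_, ?_⟩
  · intro i
    rw [hs']
    apply ratL_mono N (sub_le_sub_right hBle E)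
    rw [← hs]
    exact Submodule.subset_span ⟨i, rfl⟩
  · intro i
    apply h0
    rw [← hs]
    exact Submodule.subset_span ⟨i, rfl⟩
  · by_contra hcon
    push Not at hcon
    apply hr0
    rw [← hs'] at hr
    have hker : Submodule.span ℚ (Set.range fun i => POS_phi β' (a' i)) ≤
        LinearMap.ker (POS_coeff ((e : ℤ) - B (pInf N) - 1)) := by
      rw [Submodule.span_le]
      rintro _ ⟨i, rfl⟩
      exact hcon i
    exact hker hr

/-- **(north)** for arbitrary bases and coordinates -/
theorem NORTH_curve {c : ℤ} (hc : IsRRBound Qb (FB N) c) (B : Divisor Qb (FB N))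
    (hB : IsRatDiv N B) {d : ℕ} (β : Fin d → LaurentSeries ℚ) (T : ℝ) :
    {E : Divisor Qb (FB N) | IsRatDiv N E ∧ c + 1 ≤ Divisor.degree B - Divisor.degree E ∧
      ∃ (k : ℕ) (a : Matrix (Fin k) (Fin d) ℚ), LinearIndependent ℚ a.row ∧
        Submodule.span ℚ (Set.range fun i => POS_phi β (a i)) = ratL N (B - E) ∧
        logHeight (plu a) ≤ T}.Finite := by
  refine Set.Finite.of_finite_image (f := fun E => ratL N (B - E))
    ((NORTH_frame β T).subset ?_) ?_
  · rintro _ ⟨E, ⟨-, -, k, a, ha, hs, hT⟩, rfl⟩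
    exact ⟨k, a, ha, hs, hT⟩
  · rintro E ⟨hE, hd, -⟩ E' ⟨hE', hd', -⟩ h
    exact POS_ratL_sub_injective N hc hB hE hE' (by rw [map_sub]; exact hd)
      (by rw [map_sub]; exact hd') h

end

end Fermat.Agent.S17Lib
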